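import Mathlib
import Fermat.Agent.S49.Lifting
import Fermat.Agent.GAL.HK.Eigen

/-!
# S41 ALR: the abstract level raising lemma (pure commutative / linear algebra)
-/

set_option autoImplicit false
open scoped TensorProduct

namespace Fermat.Agent.S41

/-- A commuting family of endomorphisms stabilising a nonzero finite dimensional subspace has a
common eigenvector in it. -/
theorem ALR_exists_common_eigenvector {K V : Type*} [Field K] [IsAlgClosed K] [AddCommGroup V]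
    [Module K V] (𝒯 : Set (Module.End K V)) (hcomm : ∀ S ∈ 𝒯, ∀ T ∈ 𝒯, Commute S T) :
    ∀ (n : ℕ) (X : Submodule K V), FiniteDimensional K X → Module.finrank K X = n → X ≠ ⊥ →
      (∀ T ∈ 𝒯, ∀ x ∈ X, T x ∈ X) → ∃ v ∈ X, v ≠ 0 ∧ ∀ T ∈ 𝒯, ∃ c : K, T v = c • v := by
  intro n
  induction n using Nat.strong_induction_on with
  | _ n ih =>
    intro X hfd hn hX hstab
    by_cases hsc : ∀ T ∈ 𝒯, ∃ c : K, ∀ x ∈ X, T x = c • x
    · obtain ⟨v, hv, hv0⟩ := X.ne_bot_iff.mp hX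
      exact ⟨v, hv, hv0, fun T hT => (hsc T hT).imp fun c hc => hc v hv⟩
    · push Not at hsc
      obtain ⟨T, hT, hTns⟩ := hsc
      have : Nontrivial X := Submodule.nontrivial_iff_ne_bot.mpr hX
      obtain ⟨c, hc⟩ := Module.End.exists_eigenvalue (T.restrict (hstab T hT))
      obtain ⟨w, hw⟩ := hc.exists_hasEigenvector
      set Y : Submodule K V := X ⊓ LinearMap.ker (T - c • (1 : Module.End K V)) with hY
      have hmemY : ∀ x, x ∈ Y ↔ x ∈ X ∧ T x = c • x := by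
        intro x
        rw [hY, Submodule.mem_inf, LinearMap.mem_ker]
        simp [sub_eq_zero]
      have hYX : Y ≤ X := inf_le_left
      have hYne : Y ≠ ⊥ := by
        rw [Submodule.ne_bot_iff]
        refine ⟨w, (hmemY _).mpr ⟨w.2, ?_⟩, fun h0 => hw.2 (Subtype.ext h0)⟩
        have := congrArg Subtype.val hw.apply_eq_smul
        simpa using this
      have hYlt : Y < X := by
        refine lt_of_le_of_ne hYX fun hEq => ?_
        obtain ⟨x, hx, hxne⟩ := hTns c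
        exact hxne ((hmemY x).mp (hEq ▸ hx)).2
      have hfdY : FiniteDimensional K Y := Submodule.finiteDimensional_of_le hYX
      have hlt : Module.finrank K Y < n := hn ▸ Submodule.finrank_lt_finrank_of_lt hYlt
      obtain ⟨v, hv, hv0, hv'⟩ := ih _ hlt Y hfdY rfl hYne (by
        intro S hS x hx
        obtain ⟨hxX, hxT⟩ := (hmemY x).mp hx
        refine (hmemY _).mpr ⟨hstab S hS x hxX, ?_⟩
        have := congrArg (fun φ : Module.End K V => φ x) (hcomm T hT S hS).eq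
        simp only [Module.End.mul_apply] at this
        rw [this, hxT, map_smul])
      exact ⟨v, hYX hv, hv0, hv'⟩

/-! ### the pairing `X × (K ⊗ Y) → K` attached to an integral bilinear form -/

section pair

variable {K : Type*} [Field K] {X Y : Type*} [AddCommGroup X] [AddCommGroup Y]

/-- `x, c ⊗ y ↦ β(x,y) c`. -/
noncomputable def ALR_pair (β : X →ₗ[ℤ] Y →ₗ[ℤ] ℤ) (x : X) : K ⊗[ℤ] Y →ₗ[K] K :=
  (TensorProduct.AlgebraTensorModule.rid ℤ K K).toLinearMap ∘ₗ (β x).baseChange K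

lemma ALR_pair_tmul (β : X →ₗ[ℤ] Y →ₗ[ℤ] ℤ) (x : X) (c : K) (y : Y) :
    ALR_pair β x (c ⊗ₜ[ℤ] y) = (β x y : K) * c := by
  simp [ALR_pair]

lemma ALR_pair_add (β : X →ₗ[ℤ] Y →ₗ[ℤ] ℤ) (x x' : X) (u : K ⊗[ℤ] Y) :
    ALR_pair β (x + x') u = ALR_pair β x u + ALR_pair β x' u := by
  induction u using TensorProduct.induction_on with
  | zero => simp
  | tmul c y => simp only [ALR_pair_tmul, map_add, LinearMap.add_apply, Int.cast_add, add_mul]
  | add u v hu hv => rw [map_add, map_add, map_add, hu, hv]; ring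

lemma ALR_pair_zsmul (β : X →ₗ[ℤ] Y →ₗ[ℤ] ℤ) (n : ℤ) (x : X) (u : K ⊗[ℤ] Y) :
    ALR_pair β (n • x) u = n • ALR_pair β x u := by
  induction u using TensorProduct.induction_on with
  | zero => simp
  | tmul c y =>
    simp only [ALR_pair_tmul, map_smul, LinearMap.smul_apply, smul_eq_mul, Int.cast_mul,
      zsmul_eq_mul, mul_assoc]
  | add u v hu hv => rw [map_add, map_add, hu, hv, smul_add]

/-- the functional `x ↦ β_K(x, u)`. -/
noncomputable def ALR_pairL (β : X →ₗ[ℤ] Y →ₗ[ℤ] ℤ) (u : K ⊗[ℤ] Y) : X →ₗ[ℤ] K where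
  toFun x := ALR_pair β x u
  map_add' x x' := ALR_pair_add β x x' u
  map_smul' n x := ALR_pair_zsmul β n x u

@[simp] lemma ALR_pairL_apply (β : X →ₗ[ℤ] Y →ₗ[ℤ] ℤ) (u : K ⊗[ℤ] Y) (x : X) :
    ALR_pairL β u x = ALR_pair β x u := rfl

lemma ALR_pair_baseChange {X' Y' Z : Type*} [AddCommGroup X'] [AddCommGroup Y'] [AddCommGroup Z]
    (β : X →ₗ[ℤ] Y →ₗ[ℤ] ℤ) (β' : X' →ₗ[ℤ] Y' →ₗ[ℤ] ℤ) (x : X) (x' : X')
    (f : Z →ₗ[ℤ] Y') (g : Z →ₗ[ℤ] Y) (h : ∀ v, β' x' (f v) = β x (g v)) (u : K ⊗[ℤ] Z) :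
    ALR_pair β' x' (f.baseChange K u) = ALR_pair β x (g.baseChange K u) := by
  induction u using TensorProduct.induction_on with
  | zero => simp
  | tmul c y => simp only [LinearMap.baseChange_tmul, ALR_pair_tmul, h]
  | add u v hu hv => rw [map_add, map_add, map_add, map_add, hu, hv]

lemma ALR_pair_baseChange_mul {X' Y' : Type*} [AddCommGroup X'] [AddCommGroup Y']
    (β : X →ₗ[ℤ] Y →ₗ[ℤ] ℤ) (β' : X' →ₗ[ℤ] Y' →ₗ[ℤ] ℤ) (x : X) (x' : X')
    (f : Y →ₗ[ℤ] Y') (n : ℤ) (h : ∀ v, β' x' (f v) = n * β x v) (u : K ⊗[ℤ] Y) :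
    ALR_pair β' x' (f.baseChange K u) = (n : K) * ALR_pair β x u := by
  induction u using TensorProduct.induction_on with
  | zero => simp
  | tmul c y => simp only [LinearMap.baseChange_tmul, ALR_pair_tmul, h, Int.cast_mul, mul_assoc]
  | add u v hu hv => rw [map_add, map_add, map_add, hu, hv, mul_add]

end pair

/-! ### unimodularity mod `p` gives nondegeneracy over `K` -/

theorem ALR_not_dvd_det {L' : Type*} [AddCommGroup L'] {ι : Type*} [Fintype ι] [DecidableEq ι]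
    (b : Module.Basis ι ℤ L') (p : ℕ) [Fact p.Prime] (B' : L' →ₗ[ℤ] L' →ₗ[ℤ] ℤ)
    (hunim : ∀ y : L', (∀ x, (p : ℤ) ∣ B' x y) → ∃ z, y = (p : ℤ) • z) :
    ¬ (p : ℤ) ∣ (Matrix.of fun i j => B' (b i) (b j)).det := by
  intro hdvd
  set G : Matrix ι ι ℤ := Matrix.of fun i j => B' (b i) (b j) with hG
  have hdet : (G.map (Int.castRingHom (ZMod p))).det = 0 := by
    rw [← RingHom.mapMatrix_apply, ← RingHom.map_det]
    exact (ZMod.intCast_zmod_eq_zero_iff_dvd _ p).2 hdvd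
  obtain ⟨v, hv0, hv⟩ := Matrix.exists_mulVec_eq_zero_iff.2 hdet
  let w : ι → ℤ := fun j => ((v j).val : ℤ)
  have hw : ∀ j, ((w j : ℤ) : ZMod p) = v j := fun j => by simp [w]
  have hrow : ∀ i, (p : ℤ) ∣ ∑ j, G i j * w j := by
    intro i
    rw [← ZMod.intCast_zmod_eq_zero_iff_dvd]
    have := congrFun hv i
    simp only [Matrix.mulVec, dotProduct, Matrix.map_apply, Int.coe_castRingHom,
      Pi.zero_apply] at this
    rw [Int.cast_sum, ← this]
    exact Finset.sum_congr rfl fun j _ => by rw [Int.cast_mul, hw]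
  have hb : ∀ i, (p : ℤ) ∣ B' (b i) (∑ j, w j • b j) := by
    intro i
    have := hrow i
    simp only [hG, Matrix.of_apply] at this
    rw [map_sum]
    have heq : ∑ x, (B' (b i)) (w x • b x) = ∑ x, (B' (b i)) (b x) * w x :=
      Finset.sum_congr rfl fun j _ => by rw [map_smul, smul_eq_mul, mul_comm]
    rw [heq]
    exact this
  obtain ⟨z, hz⟩ := hunim (∑ j, w j • b j) (by
    intro x
    generalize (∑ j, w j • b j) = y₀ at hb
    rw [← b.sum_repr x, map_sum, LinearMap.sum_apply]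
    refine Finset.dvd_sum fun i _ => ?_
    rw [map_smul, LinearMap.smul_apply, smul_eq_mul]
    exact Dvd.dvd.mul_left (hb i) _)
  apply hv0
  funext j
  have h1 : b.repr (∑ j, w j • b j) j = w j := by
    simp [Finsupp.single_apply]
  rw [hz, map_smul, Finsupp.smul_apply, smul_eq_mul] at h1
  rw [← hw j, ← h1]
  simp

theorem ALR_nondeg {L' : Type*} [AddCommGroup L'] [Module.Free ℤ L'] [Module.Finite ℤ L']
    {K : Type*} [Field K] (p : ℕ) [Fact p.Prime] [CharP K p] (B' : L' →ₗ[ℤ] L' →ₗ[ℤ] ℤ)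
    (hunim : ∀ y : L', (∀ x, (p : ℤ) ∣ B' x y) → ∃ z, y = (p : ℤ) • z)
    (y : K ⊗[ℤ] L') (h : ∀ m, ALR_pair B' m y = 0) : y = 0 := by
  classical
  let b := Module.Free.chooseBasis ℤ L'
  let bK := Algebra.TensorProduct.basis K b
  set G : Matrix _ _ ℤ := Matrix.of fun i j => B' (b i) (b j) with hG
  have hdet : (G.map (Int.castRingHom K)).det ≠ 0 := by
    rw [← RingHom.mapMatrix_apply, ← RingHom.map_det]
    intro h0
    exact ALR_not_dvd_det b p B' hunim ((CharP.intCast_eq_zero_iff K p _).1 h0)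
  have hmul : (G.map (Int.castRingHom K)).mulVec (fun j => bK.repr y j) = 0 := by
    funext i
    have := h (b i)
    rw [← bK.sum_repr y, map_sum] at this
    simp only [Matrix.mulVec, dotProduct, Matrix.map_apply, Int.coe_castRingHom, Pi.zero_apply]
    rw [← this]
    refine Finset.sum_congr rfl fun j _ => ?_
    rw [map_smul, Algebra.TensorProduct.basis_apply, ALR_pair_tmul, hG, Matrix.of_apply,
      smul_eq_mul]
    ring
  have hzero := Matrix.eq_zero_of_mulVec_eq_zero hdet hmul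
  rw [← bK.sum_repr y]
  exact Finset.sum_eq_zero fun j _ => by rw [congrFun hzero j]; simp

/-! ### (ALR2): a character of the Hecke ring -/

section core

variable {L' : Type*} [AddCommGroup L'] [Module.Free ℤ L'] [Module.Finite ℤ L']
  {K : Type*} [Field K]

/-- precomposition with an endomorphism of `L'`, as a `K`-linear endomorphism of `Hom(L', K)`. -/
noncomputable def ALR_precomp (t : Module.End ℤ L') : Module.End K (L' →ₗ[ℤ] K) where
  toFun l := l.comp t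
  map_add' _ _ := rfl
  map_smul' _ _ := rfl

@[simp] lemma ALR_precomp_apply (t : Module.End ℤ L') (l : L' →ₗ[ℤ] K) (m : L') :
    ALR_precomp t l m = l (t m) := rfl

/-- (ALR2), first half: a common eigenfunctional and its character. -/
theorem ALR_exists_character [IsAlgClosed K]
    {R : Type*} [CommRing R] (act : R →+* Module.End ℤ L')
    {I : Type*} (τ : I → R) (a : I → ℤ)
    (A : Submodule ℤ L') (hstab : ∀ t, ∀ y ∈ A, act t y ∈ A)
    (l₀ : L' →ₗ[ℤ] K) (hl₀ : l₀ ≠ 0) (hl₀A : ∀ y ∈ A, l₀ y = 0)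
    (hl₀T : ∀ i m, l₀ (act (τ i) m) = (a i : K) * l₀ m) :
    ∃ (ψ : R →+* K) (l : L' →ₗ[ℤ] K) (m₀ : L'), l m₀ ≠ 0 ∧ (∀ y ∈ A, l y = 0) ∧
      (∀ t m, l (act t m) = ψ t * l m) ∧ ∀ i, ψ (τ i) = (a i : K) := by
  let Y : Submodule K (L' →ₗ[ℤ] K) :=
    { carrier := {l | (∀ y ∈ A, l y = 0) ∧ ∀ i m, l (act (τ i) m) = (a i : K) * l m}
      add_mem' := by
        rintro l l' ⟨h1, h2⟩ ⟨h1', h2'⟩
        refine ⟨fun y hy => by rw [LinearMap.add_apply, h1 y hy, h1' y hy, add_zero],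
          fun i m => by rw [LinearMap.add_apply, LinearMap.add_apply, h2, h2', mul_add]⟩
      zero_mem' := ⟨fun _ _ => rfl, fun i m => by simp⟩
      smul_mem' := by
        rintro c l ⟨h1, h2⟩
        refine ⟨fun y hy => by rw [LinearMap.smul_apply, h1 y hy, smul_zero],
          fun i m => by rw [LinearMap.smul_apply, LinearMap.smul_apply, h2, smul_eq_mul,
            smul_eq_mul]; ring⟩ }
  have hfd : FiniteDimensional K (L' →ₗ[ℤ] K) := inferInstance
  have hYne : Y ≠ ⊥ := by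
    rw [Submodule.ne_bot_iff]
    exact ⟨l₀, ⟨hl₀A, hl₀T⟩, hl₀⟩
  obtain ⟨l, hlY, hl0, hl⟩ := ALR_exists_common_eigenvector
    (Set.range fun t : R => (ALR_precomp (act t) : Module.End K (L' →ₗ[ℤ] K)))
    (by
      rintro _ ⟨s, rfl⟩ _ ⟨t, rfl⟩
      refine LinearMap.ext fun l => LinearMap.ext fun m => ?_
      simp only [Module.End.mul_apply, ALR_precomp_apply]
      rw [← Module.End.mul_apply, ← Module.End.mul_apply, ← map_mul, ← map_mul, mul_comm])
    _ Y inferInstance rfl hYne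
    (by
      rintro _ ⟨t, rfl⟩ l ⟨h1, h2⟩
      refine ⟨fun y hy => h1 _ (hstab t y hy), fun i m => ?_⟩
      simp only [ALR_precomp_apply]
      rw [← h2, ← Module.End.mul_apply, ← Module.End.mul_apply, ← map_mul, ← map_mul, mul_comm])
  have hex : ∀ t : R, ∃ c : K, ∀ m, l (act t m) = c * l m := by
    intro t
    obtain ⟨c, hc⟩ := hl _ ⟨t, rfl⟩
    exact ⟨c, fun m => by
      have := congrArg (fun φ : L' →ₗ[ℤ] K => φ m) hc
      simpa using this⟩
  choose ψ hψ using hex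
  obtain ⟨m₀, hm₀⟩ : ∃ m₀, l m₀ ≠ 0 := by
    by_contra hcon
    push Not at hcon
    exact hl0 (LinearMap.ext hcon)
  refine ⟨{ toFun := ψ, map_one' := ?_, map_mul' := ?_, map_zero' := ?_, map_add' := ?_ },
    l, m₀, hm₀, hlY.1, hψ, fun i => ?_⟩
  · apply mul_right_cancel₀ hm₀
    rw [← hψ, map_one, one_mul]
    rfl
  · intro s t
    apply mul_right_cancel₀ hm₀
    rw [← hψ, map_mul, Module.End.mul_apply, hψ, hψ, mul_assoc]
  · apply mul_right_cancel₀ hm₀
    rw [← hψ, map_zero, zero_mul]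
    simp
  · intro s t
    apply mul_right_cancel₀ hm₀
    rw [← hψ, map_add, LinearMap.add_apply, map_add, hψ, hψ, add_mul]
  · apply mul_right_cancel₀ hm₀
    change ψ (τ i) * l m₀ = _
    rw [← hψ, hlY.2]

/-- (ALR2), second half: the character kills every `t` with `p ^ k • t L' ⊆ A`. -/
theorem ALR_character_eq_zero_of_pow (p : ℕ) [Fact p.Prime] [CharP K p]
    {R : Type*} [CommRing R] (act : R →+* Module.End ℤ L')
    (A : Submodule ℤ L') (E : R)
    (hE : ∀ y ∈ A, (∃ z, y = (p : ℤ) • z) → ∃ w ∈ A, act E y = (p : ℤ) • w)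
    (ψ : R →+* K) (hψE : ψ E ≠ 0) (l : L' →ₗ[ℤ] K) (m₀ : L') (hm₀ : l m₀ ≠ 0)
    (hlA : ∀ y ∈ A, l y = 0) (hψ : ∀ t m, l (act t m) = ψ t * l m) :
    ∀ (k : ℕ) (t : R), (∀ m, ((p : ℤ) ^ k) • act t m ∈ A) → ψ t = 0 := by
  intro k
  induction k with
  | zero =>
    intro t ht
    have h1 := hlA _ (ht m₀)
    rw [pow_zero, one_smul, hψ] at h1
    exact (mul_eq_zero.1 h1).resolve_right hm₀
  | succ k ih =>
    intro t ht
    have hp0 : (p : ℤ) ≠ 0 := by exact_mod_cast (Fact.out : p.Prime).ne_zero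
    have h2 : ψ (E * t) = 0 := by
      apply ih
      intro m
      obtain ⟨w, hw, hwe⟩ := hE _ (ht m) ⟨((p : ℤ) ^ k) • act t m, by rw [smul_smul, pow_succ']⟩
      have : (p : ℤ) • (((p : ℤ) ^ k) • act (E * t) m) = (p : ℤ) • w := by
        rw [← hwe, map_smul, map_mul, Module.End.mul_apply, smul_smul, pow_succ']
      rw [smul_right_injective L' hp0 this]
      exact hw
    rw [map_mul] at h2
    exact (mul_eq_zero.1 h2).resolve_left hψE

/-- (ALR2)+(ALR3). -/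
theorem ALR_core [IsAlgClosed K] (p : ℕ) [Fact p.Prime] [CharP K p]
    {R : Type*} [CommRing R] (act : R →+* Module.End ℤ L') (hact : Function.Injective act)
    {I : Type*} (τ : I → R) (a : I → ℤ)
    (A : Submodule ℤ L') (hstab : ∀ t, ∀ y ∈ A, act t y ∈ A)
    (i₀ : I) (c₀ : ℤ) (he : ¬ (p : ℤ) ∣ a i₀ ^ 2 - c₀)
    (hE : ∀ y ∈ A, (∃ z, y = (p : ℤ) • z) →
      ∃ w ∈ A, act (τ i₀ * τ i₀ - (c₀ : R)) y = (p : ℤ) • w)
    (l₀ : L' →ₗ[ℤ] K) (hl₀ : l₀ ≠ 0) (hl₀A : ∀ y ∈ A, l₀ y = 0)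
    (hl₀T : ∀ i m, l₀ (act (τ i) m) = (a i : K) * l₀ m) :
    ∃ (lam : R →+* integralClosure ℤ ℂ) (𝔪' : Ideal (integralClosure ℤ ℂ)) (v : ℂ ⊗[ℤ] L'),
      v ≠ 0 ∧
      (∀ t : R, (act t).baseChange ℂ v = ((lam t : integralClosure ℤ ℂ) : ℂ) • v) ∧
      𝔪'.IsMaximal ∧ (p : integralClosure ℤ ℂ) ∈ 𝔪' ∧
      (∀ i, lam (τ i) - (a i : integralClosure ℤ ℂ) ∈ 𝔪') ∧
      (∀ t : R, (∀ y, act t y ∈ A) → lam t = 0) := by
  obtain ⟨ψ, l, m₀, hm₀, hlA, hψ, hψτ⟩ :=
    ALR_exists_character act τ a A hstab l₀ hl₀ hl₀A hl₀T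
  have hp : p.Prime := Fact.out
  have hψE : ψ (τ i₀ * τ i₀ - (c₀ : R)) ≠ 0 := by
    rw [map_sub, map_mul, hψτ, map_intCast]
    intro h0
    apply he
    rw [← CharP.intCast_eq_zero_iff K p]
    push_cast
    rw [← h0]; ring
  have hpow := ALR_character_eq_zero_of_pow p act A _ hE ψ hψE l m₀ hm₀ hlA hψ
  -- the ideal `J`
  let J : Ideal R :=
    { carrier := {t | ∃ n : ℕ, 0 < n ∧ ∀ m, (n : ℤ) • act t m ∈ A}
      add_mem' := by
        rintro s t ⟨n, hn, hs⟩ ⟨n', hn', ht⟩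
        refine ⟨n * n', Nat.mul_pos hn hn', fun m => ?_⟩
        have h1 := A.smul_mem (n' : ℤ) (hs m)
        have h2 := A.smul_mem (n : ℤ) (ht m)
        have := A.add_mem h1 h2
        rw [smul_smul, smul_smul, mul_comm (n' : ℤ), ← smul_add] at this
        rw [map_add, LinearMap.add_apply]
        exact_mod_cast this
      zero_mem' := ⟨1, one_pos, fun m => by simp⟩
      smul_mem' := by
        rintro r t ⟨n, hn, ht⟩
        refine ⟨n, hn, fun m => ?_⟩
        rw [smul_eq_mul, map_mul, Module.End.mul_apply, ← map_smul]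
        exact hstab r _ (ht m) }
  have hmemJ : ∀ t, t ∈ J ↔ ∃ n : ℕ, 0 < n ∧ ∀ m, (n : ℤ) • act t m ∈ A := fun t => Iff.rfl
  have hψJ : ∀ t ∈ J, ψ t = 0 := by
    rintro t ⟨n, hn, ht⟩
    obtain ⟨k, n', hn', rfl⟩ := Nat.exists_eq_pow_mul_and_not_dvd hn.ne' p hp.ne_one
    have h1 : ψ ((n' : R) * t) = 0 := by
      apply hpow k
      intro m
      have := ht m
      rw [map_mul, map_natCast, Module.End.mul_apply]
      have h3 : ((n' : Module.End ℤ L')) (act t m) = (n' : ℤ) • act t m := by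
        rw [Module.End.natCast_apply]; simp
      rw [h3, smul_smul]
      exact_mod_cast this
    rw [map_mul, map_natCast] at h1
    refine (mul_eq_zero.1 h1).resolve_left ?_
    rwa [CharP.cast_eq_zero_iff K p]
  -- integrality and torsion freeness of `R ⧸ J`
  have hfinR : Module.Finite ℤ R :=
    Module.Finite.of_injective act.toAddMonoidHom.toIntLinearMap hact
  have hintR : Algebra.IsIntegral ℤ R := Algebra.IsIntegral.of_finite ℤ R
  have hintQ : Algebra.IsIntegral ℤ (R ⧸ J) := inferInstance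
  have htf : IsAddTorsionFree (R ⧸ J) := by
    refine ⟨fun n hn x y hxy => ?_⟩
    obtain ⟨s, rfl⟩ := Ideal.Quotient.mk_surjective x
    obtain ⟨t, rfl⟩ := Ideal.Quotient.mk_surjective y
    simp only [← map_nsmul] at hxy
    rw [Ideal.Quotient.eq] at hxy ⊢
    obtain ⟨n', hn', h⟩ := hxy
    refine ⟨n' * n, Nat.mul_pos hn' (Nat.pos_of_ne_zero hn), fun m => ?_⟩
    have := h m
    rw [← smul_sub, map_nsmul, LinearMap.smul_apply, ← natCast_zsmul, smul_smul] at this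
    exact_mod_cast this
  let ψbar : R ⧸ J →+* K := Ideal.Quotient.lift J ψ hψJ
  have hprime : (RingHom.ker ψbar).IsPrime := RingHom.ker_isPrime ψbar
  have hcomapZ : (RingHom.ker ψbar).comap (algebraMap ℤ (R ⧸ J)) = Ideal.span {(p : ℤ)} := by
    ext n
    rw [Ideal.mem_comap, RingHom.mem_ker, Ideal.mem_span_singleton, eq_intCast, map_intCast,
      CharP.intCast_eq_zero_iff K p]
  have hmaxZ : ((RingHom.ker ψbar).comap (algebraMap ℤ (R ⧸ J))).IsMaximal := by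
    rw [hcomapZ]
    exact PrincipalIdealRing.isMaximal_of_irreducible (Nat.prime_iff_prime_int.1 hp).irreducible
  have hmax : (RingHom.ker ψbar).IsMaximal :=
    Ideal.isMaximal_of_isIntegral_of_isMaximal_comap _ hmaxZ
  obtain ⟨lamb, 𝔪', h𝔪', hcomap⟩ := Fermat.Agent.S49.exists_lift_of_isMaximal (RingHom.ker ψbar)
  have hmem : ∀ z : R ⧸ J, ψbar z = 0 → lamb z ∈ 𝔪' := by
    intro z hz
    rw [← Ideal.mem_comap, hcomap]
    exact hz
  let lam : R →+* integralClosure ℤ ℂ := lamb.comp (Ideal.Quotient.mk J)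
  obtain ⟨v, hv0, hv⟩ := Fermat.Agent.GAL.HK.exists_eigenvector act hact
    ((integralClosure ℤ ℂ).val.toRingHom.comp lam)
  refine ⟨lam, 𝔪', v, hv0, hv, h𝔪', ?_, fun i => ?_, fun t ht => ?_⟩
  · have := hmem (p : R ⧸ J) (by rw [map_natCast]; exact CharP.cast_eq_zero K p)
    rwa [map_natCast] at this
  · have := hmem (Ideal.Quotient.mk J (τ i) - (a i : R ⧸ J)) (by
      rw [map_sub, map_intCast]
      change ψ (τ i) - _ = 0
      rw [hψτ, sub_self])
    rwa [map_sub, map_intCast] at this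
  · have : t ∈ J := ⟨1, one_pos, fun m => by simpa using ht m⟩
    change lamb (Ideal.Quotient.mk J t) = 0
    rw [Ideal.Quotient.eq_zero_iff_mem.2 this, map_zero]

end core

/-- abstract level raising -/
theorem abstract_level_raising
    {L L' : Type*} [AddCommGroup L] [Module.Free ℤ L] [Module.Finite ℤ L]
    [AddCommGroup L'] [Module.Free ℤ L'] [Module.Finite ℤ L']
    {K : Type*} [Field K] [IsAlgClosed K] (p : ℕ) [Fact p.Prime] [CharP K p]
    {I : Type*} (T : I → Module.End ℤ L) (a : I → ℤ) (Tq : Module.End ℤ L) (q : ℤ)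
    (𝕋 : Subalgebra ℤ (Module.End ℤ L')) (hcomm : ∀ s ∈ 𝕋, ∀ t ∈ 𝕋, s * t = t * s)
    (T' : I → Module.End ℤ L') (hT' : ∀ i, T' i ∈ 𝕋)
    (α₁ α₂ : L →ₗ[ℤ] L')
    (hα₁ : ∀ i x, T' i (α₁ x) = α₁ (T i x)) (hα₂ : ∀ i x, T' i (α₂ x) = α₂ (T i x))
    (hstab : ∀ t ∈ 𝕋, ∀ y ∈ LinearMap.range α₁ ⊔ LinearMap.range α₂,
      t y ∈ LinearMap.range α₁ ⊔ LinearMap.range α₂)
    (B : L →ₗ[ℤ] L →ₗ[ℤ] ℤ) (B' : L' →ₗ[ℤ] L' →ₗ[ℤ] ℤ)
    (h11 : ∀ u v, B' (α₁ u) (α₁ v) = (q + 1) * B u v)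
    (h22 : ∀ u v, B' (α₂ u) (α₂ v) = (q + 1) * B u v)
    (h12 : ∀ u v, B' (α₁ u) (α₂ v) = B u (Tq v))
    (h21 : ∀ u v, B' (α₂ u) (α₁ v) = B u (Tq v))
    (hadj : ∀ i x y, B' (T' i x) y = B' x (T' i y))
    (hunim : ∀ y : L', (∀ x, (p : ℤ) ∣ B' x y) → ∃ z, y = (p : ℤ) • z)
    -- weak Ihara + non-Eisenstein: one operator `T_{i₀}² - c₀` kills the kernel of `α mod p`
    (i₀ : I) (c₀ : ℤ) (he : ¬ (p : ℤ) ∣ a i₀ ^ 2 - c₀)
    (hEK : ∀ u₁ u₂ : K ⊗[ℤ] L, α₁.baseChange K u₁ + α₂.baseChange K u₂ = 0 →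
      (T i₀).baseChange K ((T i₀).baseChange K u₁) = (c₀ : K) • u₁ ∧
      (T i₀).baseChange K ((T i₀).baseChange K u₂) = (c₀ : K) • u₂)
    (hEZ : ∀ w₁ w₂ : L, (∃ z, α₁ w₁ + α₂ w₂ = (p : ℤ) • z) →
      (∃ v, T i₀ (T i₀ w₁) - c₀ • w₁ = (p : ℤ) • v) ∧ (∃ v, T i₀ (T i₀ w₂) - c₀ • w₂ = (p : ℤ) • v))
    -- the eigenvector coming from `f`
    (x : K ⊗[ℤ] L) (hx : x ≠ 0) (hxT : ∀ i, (T i).baseChange K x = (a i : K) • x)
    (c : K) (hxq : Tq.baseChange K x = c • x) (hc : c ^ 2 = ((q : K) + 1) ^ 2) :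
    ∃ (lam : 𝕋 →+* integralClosure ℤ ℂ) (𝔪' : Ideal (integralClosure ℤ ℂ)) (v : ℂ ⊗[ℤ] L'),
      v ≠ 0 ∧
      (∀ t : 𝕋, (t : Module.End ℤ L').baseChange ℂ v = ((lam t : integralClosure ℤ ℂ) : ℂ) • v) ∧
      𝔪'.IsMaximal ∧ (p : integralClosure ℤ ℂ) ∈ 𝔪' ∧
      (∀ i, lam ⟨T' i, hT' i⟩ - (a i : integralClosure ℤ ℂ) ∈ 𝔪') ∧
      (∀ t : 𝕋, (∀ y, (t : Module.End ℤ L') y ∈ LinearMap.range α₁ ⊔ LinearMap.range α₂) →
        lam t = 0) := by
  classical
  -- (ALR1) the scalars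
  obtain ⟨s₁, s₂, hs, hs1, hs2⟩ : ∃ s₁ s₂ : K, (s₁ ≠ 0 ∨ s₂ ≠ 0) ∧
      ((q : K) + 1) * s₁ + c * s₂ = 0 ∧ c * s₁ + ((q : K) + 1) * s₂ = 0 := by
    by_cases hq : (q : K) + 1 = 0
    · have hc0 : c = 0 := by
        rw [hq] at hc
        simpa using hc
      exact ⟨1, 0, Or.inl one_ne_zero, by simp [hq], by simp [hc0]⟩
    · exact ⟨(q : K) + 1, -c, Or.inl hq, by linear_combination -hc, by ring⟩
  have hTs : ∀ i (s : K), (T i).baseChange K (s • x) = (a i : K) • (s • x) := fun i s => by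
    rw [map_smul, hxT, smul_comm]
  set y : K ⊗[ℤ] L' := α₁.baseChange K (s₁ • x) + α₂.baseChange K (s₂ • x) with hy
  have haK : ((a i₀ : K)) ^ 2 - (c₀ : K) ≠ 0 := by
    intro h0
    apply he
    rw [← CharP.intCast_eq_zero_iff K p]
    push_cast
    exact h0
  have hy0 : y ≠ 0 := by
    intro h0
    obtain ⟨e1, e2⟩ := hEK _ _ h0
    have key : ∀ s : K, (T i₀).baseChange K ((T i₀).baseChange K (s • x)) = (c₀ : K) • (s • x) →
        s = 0 := by
      intro s h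
      rw [hTs, map_smul, hTs, smul_smul, smul_smul, smul_smul, ← sub_eq_zero, ← sub_smul] at h
      rcases smul_eq_zero.1 h with h | h
      · have : (((a i₀ : K)) ^ 2 - (c₀ : K)) * s = 0 := by rw [← h]; ring
        exact (mul_eq_zero.1 this).resolve_left haK
      · exact absurd h hx
    rcases hs with h | h
    · exact h (key s₁ e1)
    · exact h (key s₂ e2)
  have hT'y : ∀ i, (T' i).baseChange K y = (a i : K) • y := by
    intro i
    have h1 : (T' i) ∘ₗ α₁ = α₁ ∘ₗ (T i) := LinearMap.ext (hα₁ i)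
    have h2 : (T' i) ∘ₗ α₂ = α₂ ∘ₗ (T i) := LinearMap.ext (hα₂ i)
    rw [hy, map_add, ← LinearMap.comp_apply, ← LinearMap.comp_apply, ← LinearMap.baseChange_comp,
      ← LinearMap.baseChange_comp, h1, h2, LinearMap.baseChange_comp, LinearMap.baseChange_comp,
      LinearMap.comp_apply, LinearMap.comp_apply, hTs, hTs, smul_add,
      map_smul (α₁.baseChange K) (a i : K), map_smul (α₂.baseChange K) (a i : K)]
  have hTq : ∀ s : K, Tq.baseChange K (s • x) = (c * s) • x := fun s => by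
    rw [map_smul, hxq, smul_smul, mul_comm]
  -- the functional
  have hpair1 : ∀ w, ALR_pair B' (α₁ w) y = 0 := by
    intro w
    rw [hy, map_add, ALR_pair_baseChange_mul B B' w (α₁ w) α₁ (q + 1) (h11 w),
      ALR_pair_baseChange B B' w (α₁ w) α₂ Tq (h12 w), hTq, map_smul, map_smul, smul_eq_mul,
      smul_eq_mul, ← mul_assoc, ← add_mul]
    push_cast
    rw [hs1, zero_mul]
  have hpair2 : ∀ w, ALR_pair B' (α₂ w) y = 0 := by
    intro w
    rw [hy, map_add, ALR_pair_baseChange_mul B B' w (α₂ w) α₂ (q + 1) (h22 w),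
      ALR_pair_baseChange B B' w (α₂ w) α₁ Tq (h21 w), hTq, map_smul, map_smul, smul_eq_mul,
      smul_eq_mul, ← mul_assoc, ← add_mul]
    push_cast
    rw [hs2, zero_mul]
  letI instC : CommRing 𝕋 :=
    { (inferInstance : Ring 𝕋) with mul_comm := fun s t => Subtype.ext (hcomm s s.2 t t.2) }
  obtain ⟨lam, 𝔪', v, hv0, hv, h𝔪', hp𝔪', hlam, hlam0⟩ :=
    ALR_core (K := K) p (R := 𝕋) 𝕋.val.toRingHom Subtype.val_injective
      (fun i => (⟨T' i, hT' i⟩ : 𝕋)) a
      (LinearMap.range α₁ ⊔ LinearMap.range α₂) (fun t y hy => hstab t t.2 y hy) i₀ c₀ he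
      (by
        intro m hm hz
        obtain ⟨_, ⟨w₁, rfl⟩, _, ⟨w₂, rfl⟩, rfl⟩ := Submodule.mem_sup.1 hm
        obtain ⟨⟨v₁, hv₁⟩, ⟨v₂, hv₂⟩⟩ := hEZ w₁ w₂ hz
        refine ⟨α₁ v₁ + α₂ v₂, Submodule.add_mem_sup ⟨v₁, rfl⟩ ⟨v₂, rfl⟩, ?_⟩
        rw [map_sub, map_mul, map_intCast]
        change T' i₀ (T' i₀ (α₁ w₁ + α₂ w₂)) - (c₀ : Module.End ℤ L') (α₁ w₁ + α₂ w₂) = _
        have e1 : (p : ℤ) • α₁ v₁ = α₁ (T i₀ (T i₀ w₁)) - c₀ • α₁ w₁ := by
          rw [← map_smul, ← hv₁, map_sub, map_smul]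
        have e2 : (p : ℤ) • α₂ v₂ = α₂ (T i₀ (T i₀ w₂)) - c₀ • α₂ w₂ := by
          rw [← map_smul, ← hv₂, map_sub, map_smul]
        rw [Module.End.intCast_apply, map_add, map_add, hα₁, hα₁, hα₂, hα₂, smul_add, smul_add,
          e1, e2]
        abel)
      (ALR_pairL B' y)
      (by
        intro h0
        exact hy0 (ALR_nondeg p B' hunim y fun m => by
          have := congrArg (fun φ : L' →ₗ[ℤ] K => φ m) h0
          simpa using this))
      (by
        intro m hm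
        obtain ⟨_, ⟨w₁, rfl⟩, _, ⟨w₂, rfl⟩, rfl⟩ := Submodule.mem_sup.1 hm
        rw [map_add, ALR_pairL_apply, ALR_pairL_apply, hpair1, hpair2, add_zero])
      (by
        intro i m
        change ALR_pair B' (T' i m) y = _ * ALR_pair B' m y
        have := ALR_pair_baseChange (K := K) B' B' m (T' i m) LinearMap.id (T' i)
          (fun v => hadj i m v) y
        rw [LinearMap.baseChange_id, LinearMap.id_apply, hT'y, map_smul, smul_eq_mul] at this
        exact this)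
  exact ⟨lam, 𝔪', v, hv0, hv, h𝔪', hp𝔪', hlam, hlam0⟩

end Fermat.Agent.S41
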