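import Fermat.Agent.S41.BaseChange
import Fermat.Agent.S49.Eigen

/-!
# S41 / FIN : an eigenvector of all `T_ℓ`, `U_r` in `ℂ ⊗ Lat M` gives a normalized eigenform
-/

set_option autoImplicit false
open CongruenceSubgroup Matrix ModularCurve ModularCurve.Period
open scoped MatrixGroups TensorProduct
open Fermat.Agent.GAL Fermat.Agent.GAL.HK

namespace Fermat.Agent.S41

theorem fin_periodHomPair_T (M : ℕ) [NeZero M] {ℓ : ℕ} (hℓ : ℓ.Prime) (hℓM : ¬ ℓ ∣ M)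
    (f g : CuspForm (Gamma0 M) 2) :
    periodHomPair M (CuspForm.heckeTLin 2 hℓ hℓM f, CuspForm.heckeTLin 2 hℓ hℓM g) =
      cohT M hℓ hℓM ℂ (periodHomPair M (f, g)) := by
  rw [Fermat.Agent.S21.periodHomPair_apply, Fermat.Agent.S21.periodHomPair_apply]
  simp only [map_add, map_sub, periodMap_heckeTLin, cohT_charInvolution]

theorem fin_periodHomPair_U (M : ℕ) [NeZero M] {r : ℕ} (hr : r.Prime) (hrM : r ∣ M)
    (f g : CuspForm (Gamma0 M) 2) :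
    periodHomPair M (CuspForm.heckeULin 2 hrM f, CuspForm.heckeULin 2 hrM g) =
      cohU M hr hrM ℂ (periodHomPair M (f, g)) := by
  rw [Fermat.Agent.S21.periodHomPair_apply, Fermat.Agent.S21.periodHomPair_apply]
  simp only [map_add, map_sub, periodMap_heckeULin hr hrM, cohU_charInvolution]

/-- a nonzero simultaneous eigenvector of all `T_ℓ`, `U_r` in `S₂(Γ₀(M))` can be normalised. -/
theorem fin_exists_of_eigen (M : ℕ) [NeZero M] (h : CuspForm (Gamma0 M) 2) (h0 : h ≠ 0)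
    (a : ℕ → ℂ)
    (hT : ∀ (ℓ : ℕ) (hℓ : ℓ.Prime) (hℓM : ¬ ℓ ∣ M), CuspForm.heckeTLin 2 hℓ hℓM h = a ℓ • h)
    (hU : ∀ (r : ℕ) (_ : r.Prime) (hrM : r ∣ M), CuspForm.heckeULin 2 hrM h = a r • h) :
    ∃ g : CuspForm (Gamma0 M) 2, g.IsNormalizedEigenform ∧
      ∀ ℓ : ℕ, ℓ.Prime → ModularFormClass.qCoeff g ℓ = a ℓ := by
  -- every element of the Hecke algebra acts by a scalar
  have hsc : ∀ t ∈ CuspForm.heckeAlgebra M 2 ∅, ∃ c : ℂ, t h = c • h := by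
    intro t ht
    induction ht using Algebra.adjoin_induction with
    | mem t ht =>
      rcases ht with ⟨ℓ, hℓ, hℓN, -, rfl⟩ | ⟨q, hqN, hq, -, rfl⟩
      · exact ⟨_, hT ℓ hℓ hℓN⟩
      · exact ⟨_, hU q hq hqN⟩
    | algebraMap n =>
      refine ⟨(n : ℂ), ?_⟩
      simp only [Module.algebraMap_end_apply, Int.cast_smul_eq_zsmul]
    | add t t' _ _ ih ih' =>
      obtain ⟨c, hc⟩ := ih
      obtain ⟨c', hc'⟩ := ih'
      exact ⟨c + c', by rw [LinearMap.add_apply, hc, hc', add_smul]⟩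
    | mul t t' _ _ ih ih' =>
      obtain ⟨c, hc⟩ := ih
      obtain ⟨c', hc'⟩ := ih'
      exact ⟨c' * c, by rw [Module.End.mul_apply, hc', map_smul, hc, smul_smul]⟩
  have h1 : ModularFormClass.qCoeff h 1 ≠ 0 := by
    intro h1
    apply h0
    apply Fermat.Agent.S49.eq_zero_of_forall_qc_one
    intro t ht
    obtain ⟨c, hc⟩ := hsc t ht
    rw [hc, Fermat.Agent.S49.qc_smul, h1, mul_zero]
  set c₀ := ModularFormClass.qCoeff h 1 with hc₀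
  set g : CuspForm (Gamma0 M) 2 := c₀⁻¹ • h with hg
  have hg1 : ModularFormClass.qCoeff g 1 = 1 := by
    rw [hg, Fermat.Agent.S49.qc_smul, ← hc₀, inv_mul_cancel₀ h1]
  have hgT : ∀ (ℓ : ℕ) (hℓ : ℓ.Prime) (hℓM : ¬ ℓ ∣ M),
      CuspForm.heckeTLin 2 hℓ hℓM g = a ℓ • g := by
    intro ℓ hℓ hℓM
    rw [hg, map_smul, hT ℓ hℓ hℓM, smul_comm]
  have hgU : ∀ (r : ℕ) (_ : r.Prime) (hrM : r ∣ M), CuspForm.heckeULin 2 hrM g = a r • g := by
    intro r hr hrM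
    rw [hg, map_smul, hU r hr hrM, smul_comm]
  refine ⟨g, Fermat.Agent.S49.isNormalizedEigenform_of_eigen g hg1
    (fun ℓ hℓ hℓM => ⟨_, hgT ℓ hℓ hℓM⟩) (fun r hr hrM => ⟨_, hgU r hr hrM⟩), fun ℓ hℓ => ?_⟩
  by_cases hℓM : ℓ ∣ M
  · exact Fermat.Agent.S49.qc_eq_of_heckeU_eq g hg1 hℓ hℓM (hgU ℓ hℓ hℓM)
  · exact Fermat.Agent.S49.qc_eq_of_heckeT_eq g hg1 hℓ hℓM (hgT ℓ hℓ hℓM)

theorem exists_eigenform_of_lat_eigenvector (M : ℕ) [NeZero M] (v : ℂ ⊗[ℤ] Lat M) (hv : v ≠ 0)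
    (a : ℕ → ℂ)
    (hT : ∀ (ℓ : ℕ) (hℓ : ℓ.Prime) (hℓM : ¬ ℓ ∣ M), (latT M hℓ hℓM).baseChange ℂ v = a ℓ • v)
    (hU : ∀ (r : ℕ) (hr : r.Prime) (hrM : r ∣ M), (latU M hr hrM).baseChange ℂ v = a r • v) :
    ∃ g : CuspForm (Gamma0 M) 2, g.IsNormalizedEigenform ∧
      ∀ ℓ : ℕ, ℓ.Prime → ModularFormClass.qCoeff g ℓ = a ℓ := by
  have hinj := (Fermat.Agent.S21.result M).1
  have hrange := (Fermat.Agent.S21.result M).2
  have hP0 : evK ℂ M v ≠ 0 := fun h => hv (evK_injective ℂ M (h.trans (map_zero _).symm))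
  have hmem : evK ℂ M v ∈ LinearMap.range (periodHomPair M) := by
    rw [hrange]
    exact evK_isParabolicHom ℂ M v
  obtain ⟨⟨f, g⟩, hfg⟩ := hmem
  have hTT : ∀ (ℓ : ℕ) (hℓ : ℓ.Prime) (hℓM : ¬ ℓ ∣ M),
      (CuspForm.heckeTLin 2 hℓ hℓM f, CuspForm.heckeTLin 2 hℓ hℓM g) = a ℓ • (f, g) := by
    intro ℓ hℓ hℓM
    apply hinj
    rw [fin_periodHomPair_T, map_smul, hfg, ← evK_latT, hT ℓ hℓ hℓM, map_smul]
  have hUU : ∀ (r : ℕ) (hr : r.Prime) (hrM : r ∣ M),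
      (CuspForm.heckeULin 2 hrM f, CuspForm.heckeULin 2 hrM g) = a r • (f, g) := by
    intro r hr hrM
    apply hinj
    rw [fin_periodHomPair_U M hr hrM, map_smul, hfg, ← evK_latU, hU r hr hrM, map_smul]
  by_cases hf : f = 0
  · have hg : g ≠ 0 := by
      intro hg
      apply hP0
      rw [← hfg, hf, hg]
      exact map_zero _
    exact fin_exists_of_eigen M g hg a (fun ℓ hℓ hℓM => congrArg Prod.snd (hTT ℓ hℓ hℓM))
      (fun r hr hrM => congrArg Prod.snd (hUU r hr hrM))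
  · exact fin_exists_of_eigen M f hf a (fun ℓ hℓ hℓM => congrArg Prod.fst (hTT ℓ hℓ hℓM))
      (fun r hr hrM => congrArg Prod.fst (hUU r hr hrM))

end Fermat.Agent.S41
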