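import Fermat.Agent.S41.Deg
import Fermat.Agent.S41.PD.Defs
import Fermat.Agent.GAL.HK.Iota
import Fermat.Agent.GAL.HK.Bridge
import Fermat.Agent.GAL.HK.CohEigen

/-!
# S41 INPUT: the eigenform `f` gives an eigenvector in `K ⊗ Lat N` for any ring hom `ℤ̄ → K`
-/

set_option autoImplicit false
open CongruenceSubgroup Matrix ModularCurve.Period
open scoped MatrixGroups TensorProduct
open Fermat.Agent.GAL Fermat.Agent.GAL.HK

namespace Fermat.Agent.S41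

theorem exists_input_eigenvector (N : ℕ) [NeZero N] (f : CuspForm (Gamma0 N) 2)
    (hf : f.IsNormalizedEigenform) {K : Type} [Field K] (φ : integralClosure ℤ ℂ →+* K) :
    ∃ x : K ⊗[ℤ] Lat N, x ≠ 0 ∧ ∀ (ℓ : ℕ) (hℓ : ℓ.Prime) (hℓN : ¬ ℓ ∣ N) (a : integralClosure ℤ ℂ),
      (a : ℂ) = ModularFormClass.qCoeff f ℓ → (latT N hℓ hℓN).baseChange K x = φ a • x := by
  classical
  obtain ⟨𝔅⟩ := exists_parBasis N
  obtain ⟨Q, hpar, hne, h⟩ := HK.exists_period_eigen (dvd_refl N) hf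
  obtain ⟨a, ha, -⟩ := coh_eigen (dvd_refl N) hf φ
  obtain ⟨c, hc0, hc⟩ := exists_eigen_of_ringHom
    (I := {ℓ : ℕ // ℓ.Prime ∧ ¬ ℓ ∣ N}) (fun ℓ => 𝔅.mat ℓ.1) (fun ℓ => a ℓ.1) φ _
    (𝔅.vec_ne_zero hpar hne) (fun ℓ => 𝔅.mulVec_eq hpar ℓ.2.1 ℓ.2.2 _ (by
      rw [ha ℓ.1 ℓ.2.1 ℓ.2.2]
      exact h ℓ.1 ℓ.2.1 ℓ.2.2))
  let e : Fin 𝔅.r → Lat N := fun j => ⟨𝔅.P j, 𝔅.par j⟩
  refine ⟨∑ j, c j ⊗ₜ[ℤ] e j, ?_, ?_⟩
  · intro h0
    apply hc0
    funext i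
    have h1 := DFunLike.congr_fun (congrArg (evK K N) h0) (Additive.ofMul (𝔅.g i))
    rw [map_sum, AddMonoidHom.finsetSum_apply] at h1
    simp only [evK_tmul, e, 𝔅.dual] at h1
    rw [Finset.sum_eq_single i] at h1
    · simpa using h1
    · intro j _ hj
      rw [if_neg (Ne.symm hj)]
      simp
    · simp
  · intro ℓ hℓ hℓN a' ha'
    have haa : a' = a ℓ := Subtype.ext (ha'.trans (ha ℓ hℓ hℓN).symm)
    have hT : ∀ j, latT N hℓ hℓN (e j) = ∑ i, 𝔅.mat ℓ i j • e i := by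
      intro j
      apply Subtype.ext
      rw [coe_latT_apply]
      have h1 : heckeCoh N ℓ (𝔅.P j) = comb 𝔅.P fun i => 𝔅.mat ℓ i j :=
        𝔅.exp ℤ _ (heckeCoh_isParabolicHom N ℓ hℓ hℓN _ (𝔅.par j))
      change heckeCoh N ℓ (𝔅.P j) = _
      rw [h1]
      refine AddMonoidHom.ext fun γ => ?_
      rw [comb_apply]
      simp [e, mul_comm]
    have h2 := hc ⟨ℓ, hℓ, hℓN⟩
    rw [map_sum, haa, Finset.smul_sum]
    simp only [LinearMap.baseChange_tmul, hT, TensorProduct.tmul_sum, TensorProduct.tmul_smul]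
    rw [Finset.sum_comm]
    refine Finset.sum_congr rfl fun i _ => ?_
    have h3 := congrFun h2 i
    simp only [Matrix.mulVec, dotProduct, Matrix.map_apply, Int.coe_castRingHom, Pi.smul_apply,
      smul_eq_mul] at h3
    rw [TensorProduct.smul_tmul', smul_eq_mul, ← h3, TensorProduct.sum_tmul]
    refine Finset.sum_congr rfl fun j _ => ?_
    rw [TensorProduct.smul_tmul', zsmul_eq_mul]

end Fermat.Agent.S41
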