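import Fermat.Agent.S41.Deg
import Fermat.Agent.S41.PD.Defs
import Fermat.Agent.GAL.HK.Iota
import Fermat.Agent.GAL.HK.Bridge

/-!
# S41 / BC : the evaluation `evK : K ⊗ Lat M → Hom(Γ₀(M), K)` is injective, has parabolic values and commutes
with the Hecke operators and the degeneracy maps.
-/

set_option autoImplicit false
open CongruenceSubgroup Matrix ModularCurve.Period
open scoped MatrixGroups TensorProduct
open Fermat.Agent.GAL Fermat.Agent.GAL.HK

namespace Fermat.Agent.S41

theorem evK_tmul_eq (K : Type*) [CommRing K] (M : ℕ) (c : K) (x : Lat M) :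
    evK K M (c ⊗ₜ x) = (AddMonoidHom.mulLeft c).comp
      ((Int.castAddHom K).comp (x : Additive (Gamma0 M) →+ ℤ)) := rfl

theorem evK_injective (K : Type*) [Field K] (M : ℕ) [NeZero M] : Function.Injective (evK K M) := by
  classical
  obtain ⟨𝔅⟩ := exists_parBasis M
  let e : K ⊗[ℤ] Lat M ≃ₗ[ℤ] (Fin 𝔅.r → K) :=
    (TensorProduct.congr (LinearEquiv.refl ℤ K) 𝔅.latEquiv) ≪≫ₗ
      TensorProduct.piScalarRight ℤ ℤ K (Fin 𝔅.r)
  have he : ∀ (u : K ⊗[ℤ] Lat M) (j : Fin 𝔅.r), e u j = evK K M u (Additive.ofMul (𝔅.g j)) := by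
    intro u j
    induction u using TensorProduct.induction_on with
    | zero => simp
    | tmul c x =>
      rw [evK_tmul]
      change TensorProduct.piScalarRight ℤ ℤ K (Fin 𝔅.r) (c ⊗ₜ 𝔅.latEquiv x) j = _
      rw [TensorProduct.piScalarRight_apply, TensorProduct.piScalarRightHom_tmul]
      change 𝔅.latEquiv x j • c = _
      rw [zsmul_eq_mul, mul_comm]
      rfl
    | add u v hu hv =>
      rw [map_add, map_add, Pi.add_apply, hu, hv]
      rfl
  rw [injective_iff_map_eq_zero]
  intro u hu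
  apply e.injective
  rw [map_zero]
  funext j
  rw [he, hu]
  rfl

theorem evK_isParabolicHom (K : Type*) [CommRing K] (M : ℕ) (u : K ⊗[ℤ] Lat M) :
    IsParabolicHom (Gamma0 M) (evK K M u) := by
  intro γ hγ
  induction u using TensorProduct.induction_on with
  | zero => rw [map_zero]; rfl
  | tmul c x => rw [evK_tmul, x.2 γ hγ, Int.cast_zero, mul_zero]
  | add u v hu hv => rw [map_add, AddMonoidHom.add_apply, hu, hv, add_zero]

theorem evK_latOp (K : Type*) [CommRing K] (M : ℕ) (D : HeckeDatum (Gamma0 M))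
    (hD : ∀ P : Additive (Gamma0 M) →+ ℤ, IsParabolicHom (Gamma0 M) P →
      IsParabolicHom (Gamma0 M) (D.T ℤ P)) (u : K ⊗[ℤ] Lat M) :
    evK K M ((latOp D hD).baseChange K u) = D.T K (evK K M u) := by
  induction u using TensorProduct.induction_on with
  | zero => rw [map_zero, map_zero, map_zero]
  | tmul c x =>
    rw [LinearMap.baseChange_tmul, evK_tmul_eq, evK_tmul_eq, HeckeDatum.T_comp, HeckeDatum.T_comp]
    rfl
  | add u v hu hv => rw [map_add, map_add, map_add, map_add, hu, hv]

theorem evK_latT (K : Type*) [CommRing K] (M : ℕ) {ℓ : ℕ} (hℓ : ℓ.Prime) (hℓM : ¬ ℓ ∣ M)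
    (u : K ⊗[ℤ] Lat M) :
    evK K M ((latT M hℓ hℓM).baseChange K u) = cohT M hℓ hℓM K (evK K M u) :=
  evK_latOp K M _ _ u

theorem evK_latU (K : Type*) [CommRing K] (M : ℕ) {r : ℕ} (hr : r.Prime) (hrM : r ∣ M)
    (u : K ⊗[ℤ] Lat M) :
    evK K M ((latU M hr hrM).baseChange K u) = cohU M hr hrM K (evK K M u) :=
  evK_latOp K M _ _ u

theorem evK_lres₁ (K : Type*) [CommRing K] (N q : ℕ) (u : K ⊗[ℤ] Lat N) :
    evK K (N * q) ((lres₁ N q).baseChange K u) = res₁ N q K (evK K N u) := by
  induction u using TensorProduct.induction_on with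
  | zero => rw [map_zero, map_zero, map_zero, map_zero]
  | tmul c x => rfl
  | add u v hu hv => rw [map_add, map_add, map_add, map_add, hu, hv]

theorem evK_lres₂ (K : Type*) [CommRing K] (N q : ℕ) [NeZero q] (u : K ⊗[ℤ] Lat N) :
    evK K (N * q) ((lres₂ N q).baseChange K u) = res₂ N q K (evK K N u) := by
  induction u using TensorProduct.induction_on with
  | zero => rw [map_zero, map_zero, map_zero, map_zero]
  | tmul c x => rfl
  | add u v hu hv => rw [map_add, map_add, map_add, map_add, hu, hv]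

end Fermat.Agent.S41
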