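import Fermat.Agent.S41.QI.Degeneracy

/-!
# S41, package H5 : the full Hecke algebra acting on `Lat M`
-/

set_option autoImplicit false
open CongruenceSubgroup Matrix ModularCurve.Period
open scoped MatrixGroups TensorProduct
open Fermat.Agent.GAL Fermat.Agent.GAL.HK

namespace Fermat.Agent.S41

/-- generators of the full Hecke algebra acting on `Lat M`. -/
def heckeGens (M : ℕ) : Set (Module.End ℤ (Lat M)) :=
  {t | (∃ (ℓ : ℕ) (hℓ : ℓ.Prime) (hℓM : ¬ ℓ ∣ M), t = latT M hℓ hℓM) ∨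
    (∃ (r : ℕ) (hr : r.Prime) (hrM : r ∣ M), t = latU M hr hrM)}

/-- the full Hecke algebra acting on `Lat M`. -/
def latAlg (M : ℕ) : Subalgebra ℤ (Module.End ℤ (Lat M)) := Algebra.adjoin ℤ (heckeGens M)

theorem h5_mem_range_iota (M : ℕ) [NeZero M] : ∀ s ∈ latAlg M, ∃ a, iota M ∅ a = s := by
  intro s hs
  induction hs using Algebra.adjoin_induction with
  | mem t ht =>
    rcases ht with ⟨ℓ, hℓ, hℓM, rfl⟩ | ⟨r, hr, hrM, rfl⟩
    · exact ⟨_, iota_T M ∅ hℓ hℓM (Set.notMem_empty _)⟩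
    · exact ⟨_, iota_U M ∅ hr hrM (Set.notMem_empty _)⟩
  | algebraMap n => exact ⟨(n : CuspForm.heckeAlgebra M 2 ∅), by rw [map_intCast, eq_intCast]⟩
  | add t t' _ _ h h' =>
    obtain ⟨a, rfl⟩ := h
    obtain ⟨b, rfl⟩ := h'
    exact ⟨a + b, map_add _ _ _⟩
  | mul t t' _ _ h h' =>
    obtain ⟨a, rfl⟩ := h
    obtain ⟨b, rfl⟩ := h'
    exact ⟨a * b, map_mul _ _ _⟩

theorem latAlg_comm (M : ℕ) [NeZero M] : ∀ s ∈ latAlg M, ∀ t ∈ latAlg M, s * t = t * s := by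
  intro s hs t ht
  obtain ⟨a, rfl⟩ := h5_mem_range_iota M s hs
  obtain ⟨b, rfl⟩ := h5_mem_range_iota M t ht
  rw [← map_mul, ← map_mul, mul_comm]

theorem latT_lres₁ (N q : ℕ) [NeZero N] [NeZero q] {ℓ : ℕ} (hℓ : ℓ.Prime) (hℓN : ¬ ℓ ∣ N)
    (hℓM : ¬ ℓ ∣ N * q) (x : Lat N) :
    latT (N * q) hℓ hℓM (lres₁ N q x) = lres₁ N q (latT N hℓ hℓN x) :=
  Subtype.ext (cohT_res₁ N q hℓ hℓN hℓM (x : Additive (Gamma0 N) →+ ℤ) x.2)

theorem latT_lres₂ (N q : ℕ) [NeZero N] [NeZero q] {ℓ : ℕ} (hℓ : ℓ.Prime) (hℓN : ¬ ℓ ∣ N)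
    (hℓM : ¬ ℓ ∣ N * q) (x : Lat N) :
    latT (N * q) hℓ hℓM (lres₂ N q x) = lres₂ N q (latT N hℓ hℓN x) :=
  Subtype.ext (cohT_res₂ N q hℓ hℓN hℓM (x : Additive (Gamma0 N) →+ ℤ) x.2)

theorem h5_latU_lres₁ (N q : ℕ) [NeZero N] [NeZero q] {r : ℕ} (hr : r.Prime) (hrN : r ∣ N)
    (hrM : r ∣ N * q) (x : Lat N) :
    latU (N * q) hr hrM (lres₁ N q x) = lres₁ N q (latU N hr hrN x) :=
  Subtype.ext (cohU_res₁ N q hr hrN hrM (x : Additive (Gamma0 N) →+ ℤ) x.2)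

theorem h5_latU_lres₂ (N q : ℕ) [NeZero N] [NeZero q] (hqN : Nat.Coprime q N) {r : ℕ}
    (hr : r.Prime) (hrN : r ∣ N) (hrM : r ∣ N * q) (x : Lat N) :
    latU (N * q) hr hrM (lres₂ N q x) = lres₂ N q (latU N hr hrN x) :=
  Subtype.ext (cohU_res₂ N q hqN hr hrN hrM (x : Additive (Gamma0 N) →+ ℤ) x.2)

theorem h5_latU_q_lres₁ (N q : ℕ) [NeZero N] [NeZero q] (hq : q.Prime) (hqN : ¬ q ∣ N)
    (hqM : q ∣ N * q) (x : Lat N) :
    latU (N * q) hq hqM (lres₁ N q x) = lres₁ N q (latT N hq hqN x) - lres₂ N q x :=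
  Subtype.ext (cohU_q_res₁ N q hq hqN hqM (x : Additive (Gamma0 N) →+ ℤ) x.2)

theorem h5_latU_q_lres₂ (N q : ℕ) [NeZero N] [NeZero q] (hq : q.Prime)
    (hqM : q ∣ N * q) (x : Lat N) :
    latU (N * q) hq hqM (lres₂ N q x) = q • lres₁ N q x :=
  Subtype.ext (cohU_q_res₂ N q hq hqM (x : Additive (Gamma0 N) →+ ℤ) x.2)

theorem h5_lres₁_mem (N q : ℕ) [NeZero q] (x : Lat N) : lres₁ N q x ∈ oldLat N q :=
  Submodule.mem_sup_left (LinearMap.mem_range_self _ x)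

theorem h5_lres₂_mem (N q : ℕ) [NeZero q] (x : Lat N) : lres₂ N q x ∈ oldLat N q :=
  Submodule.mem_sup_right (LinearMap.mem_range_self _ x)

theorem latAlg_stab (N q : ℕ) [NeZero N] [NeZero q] (hq : q.Prime) (hqN : ¬ q ∣ N) :
    ∀ t ∈ latAlg (N * q), ∀ y ∈ oldLat N q, t y ∈ oldLat N q := by
  intro t ht
  induction ht using Algebra.adjoin_induction with
  | mem t ht =>
    intro y hy
    obtain ⟨_, ⟨a, rfl⟩, _, ⟨b, rfl⟩, rfl⟩ := Submodule.mem_sup.mp hy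
    rw [map_add]
    rcases ht with ⟨ℓ, hℓ, hℓM, rfl⟩ | ⟨r, hr, hrM, rfl⟩
    · have hℓN : ¬ ℓ ∣ N := fun h => hℓM (h.mul_right q)
      rw [latT_lres₁ N q hℓ hℓN, latT_lres₂ N q hℓ hℓN]
      exact add_mem (h5_lres₁_mem N q _) (h5_lres₂_mem N q _)
    · rcases (Nat.Prime.dvd_mul hr).mp hrM with hrN | hrq
      · rw [h5_latU_lres₁ N q hr hrN,
          h5_latU_lres₂ N q ((Nat.Prime.coprime_iff_not_dvd hq).mpr hqN) hr hrN]
        exact add_mem (h5_lres₁_mem N q _) (h5_lres₂_mem N q _)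
      · obtain rfl : r = q := (Nat.prime_dvd_prime_iff_eq hr hq).mp hrq
        rw [h5_latU_q_lres₁ N r hr hqN, h5_latU_q_lres₂ N r hr]
        exact add_mem (sub_mem (h5_lres₁_mem N r _) (h5_lres₂_mem N r _))
          ((oldLat N r).smul_of_tower_mem r (h5_lres₁_mem N r _))
  | algebraMap n =>
    intro y hy
    rw [Module.algebraMap_end_apply]
    exact (oldLat N q).smul_mem n hy
  | add t t' _ _ h h' =>
    intro y hy
    exact add_mem (h y hy) (h' y hy)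
  | mul t t' _ _ h h' =>
    intro y hy
    exact h _ (h' y hy)

end Fermat.Agent.S41
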