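import Mathlib
import Fermat.Prelude.Def_ModularCurve_PeriodMap

/-!
# S41 (level raising) : shared definitions

* `V2 = ℚ²`, `sl g`, `zq A` : rational matrices attached to `g : SL(2,ℤ)`, `A : M₂(ℤ)`
* `Homog k` : `k : ℚ² → R` is a function on cusps (`ℙ¹(ℚ)` = nonzero vectors up to scalars)
* `IsQI Γ φ k` : `k (γ v) = k v + φ γ` (`k` is a "cusp primitive" of the parabolic hom `φ`)
* `om k k'` : the area 2-cocycle of `(k, k')`;  `orc` : the orientation 2-cocycle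
* `HasMean w c` : `w = c • orc + dθ` with `θ` invariant under some `Γ(M)`
* `Lat M` : the lattice of parabolic homs `Γ₀(M) → ℤ`
* `res₁`, `res₂` : the two degeneracy maps `Hom(Γ₀(N), A) → Hom(Γ₀(N q), A)`
-/

set_option autoImplicit false

open CongruenceSubgroup Matrix
open scoped MatrixGroups

namespace Fermat.Agent.S41

/-- `ℚ²`. -/
abbrev V2 : Type := Fin 2 → ℚ

/-- `M₂(ℚ)`. -/
abbrev M2 : Type := Matrix (Fin 2) (Fin 2) ℚ

/-- the determinant of two vectors. -/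
def dt (u v : V2) : ℚ := u 0 * v 1 - u 1 * v 0

/-- an integral matrix as a rational matrix. -/
def zq (A : Matrix (Fin 2) (Fin 2) ℤ) : M2 := A.map (Int.cast : ℤ → ℚ)

/-- an element of `SL(2,ℤ)` as a rational matrix. -/
def sl (g : SL(2, ℤ)) : M2 := zq (g : Matrix (Fin 2) (Fin 2) ℤ)

/-- `k` is homogeneous of degree `0`, i.e. a function on `ℙ¹(ℚ)`. -/
def Homog {R : Type*} (k : V2 → R) : Prop := ∀ (c : ℚ) (v : V2), c ≠ 0 → k (c • v) = k v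

/-- `k` is a cusp function with `k ∘ γ = k + φ γ` for `γ ∈ Γ`. -/
structure IsQI {R : Type*} [AddCommGroup R] (Γ : Subgroup SL(2, ℤ)) (φ : Additive Γ →+ R)
    (k : V2 → R) : Prop where
  homog : Homog k
  qi : ∀ (γ : Γ) (v : V2), v ≠ 0 → k (sl (γ : SL(2, ℤ)) *ᵥ v) = k v + φ (Additive.ofMul γ)

/-- the area cocycle of the pair `(k, k')`. -/
def om {R : Type*} [CommRing R] (k k' : V2 → R) (a b c : V2) : R :=
  (k b - k a) * (k' c - k' a) - (k c - k a) * (k' b - k' a)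

/-- the orientation cocycle on `ℙ¹(ℚ)`. -/
noncomputable def orc (a b c : V2) : ℚ := ((SignType.sign (dt a b * dt b c * dt c a) : SignType) : ℚ)

/-- `θ` is an alternating 1-cochain on `ℙ¹(ℚ)`, invariant under `Γ(M)`. -/
structure IsSm1 (M : ℕ) (θ : V2 → V2 → ℚ) : Prop where
  homog : ∀ (c : ℚ) (a b : V2), c ≠ 0 → θ (c • a) b = θ a b
  alt : ∀ a b : V2, θ b a = - θ a b
  inv : ∀ γ ∈ Gamma M, ∀ a b : V2, θ (sl γ *ᵥ a) (sl γ *ᵥ b) = θ a b

/-- `w = c • orc + dθ` with `θ` smooth. -/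
def HasMean (w : V2 → V2 → V2 → ℚ) (c : ℚ) : Prop :=
  ∃ (M : ℕ) (θ : V2 → V2 → ℚ), 0 < M ∧ IsSm1 M θ ∧
    ∀ x y z : V2, x ≠ 0 → y ≠ 0 → z ≠ 0 → w x y z = c * orc x y z + (θ y z - θ x z + θ x y)

/-- the lattice `H¹(X₀(M), ℤ)` : parabolic homomorphisms `Γ₀(M) → ℤ`. -/
abbrev Lat (M : ℕ) : Submodule ℤ (Additive (Gamma0 M) →+ ℤ) :=
  ModularCurve.Period.parabolicHoms ℤ (Gamma0 M) ℤ

theorem Gamma0_mul_le (N q : ℕ) : Gamma0 (N * q) ≤ Gamma0 N := by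
  intro γ hγ
  rw [Gamma0_mem, ZMod.intCast_zmod_eq_zero_iff_dvd] at hγ ⊢
  exact (Int.natCast_dvd_natCast.2 (Dvd.intro q rfl)).trans hγ

theorem dvd_of_mem_Gamma0 {M : ℕ} (γ : Gamma0 M) : (M : ℤ) ∣ (γ : SL(2, ℤ)) 1 0 := by
  have h := γ.2
  rwa [Gamma0_mem, ZMod.intCast_zmod_eq_zero_iff_dvd] at h

/-- the matrix `δ γ δ⁻¹ = (a, q b; c / q, d)`, `δ = diag(q, 1)`. -/
def dconjMat (q : ℕ) (A : Matrix (Fin 2) (Fin 2) ℤ) : Matrix (Fin 2) (Fin 2) ℤ :=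
  !![A 0 0, q * A 0 1; A 1 0 / q, A 1 1]

theorem dconjMat_det {q : ℕ} {A : Matrix (Fin 2) (Fin 2) ℤ} (h : (q : ℤ) ∣ A 1 0) :
    (dconjMat q A).det = A.det := by
  obtain ⟨c, hc⟩ := h
  rcases Nat.eq_zero_or_pos q with rfl | hq
  · simp only [Nat.cast_zero, zero_mul] at hc
    simp [dconjMat, Matrix.det_fin_two, hc]
  · have hq' : (q : ℤ) ≠ 0 := by exact_mod_cast hq.ne'
    rw [dconjMat, Matrix.det_fin_two_of, Matrix.det_fin_two, hc, Int.mul_ediv_cancel_left _ hq']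
    ring

theorem dconjMat_mul {q : ℕ} (hq : q ≠ 0) {A B : Matrix (Fin 2) (Fin 2) ℤ} (hA : (q : ℤ) ∣ A 1 0)
    (hB : (q : ℤ) ∣ B 1 0) : dconjMat q (A * B) = dconjMat q A * dconjMat q B := by
  obtain ⟨c, hc⟩ := hA
  obtain ⟨c', hc'⟩ := hB
  have hq' : (q : ℤ) ≠ 0 := by exact_mod_cast hq
  have h1 : (A * B) 1 0 = q * (c * B 0 0 + A 1 1 * c') := by
    rw [Matrix.mul_apply, Fin.sum_univ_two, hc, hc']; ring
  ext i j
  fin_cases i <;> fin_cases j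
  · simp [dconjMat, Matrix.mul_apply, Fin.sum_univ_two, hc', Int.mul_ediv_cancel_left _ hq']
    ring
  · simp [dconjMat, Matrix.mul_apply, Fin.sum_univ_two]
    ring
  · simp only [dconjMat, Fin.mk_one, Fin.isValue, Fin.zero_eta, of_apply, cons_val', cons_val_zero,
      cons_val_fin_one, cons_val_one, h1, Int.mul_ediv_cancel_left _ hq', Matrix.mul_apply,
      Fin.sum_univ_two, hc, hc']
  · simp [dconjMat, Matrix.mul_apply, Fin.sum_univ_two, hc, Int.mul_ediv_cancel_left _ hq']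
    ring

theorem q_dvd_of_mem (N q : ℕ) (γ : Gamma0 (N * q)) : (q : ℤ) ∣ (γ : SL(2, ℤ)) 1 0 :=
  (Int.natCast_dvd_natCast.2 (Dvd.intro_left N rfl)).trans (dvd_of_mem_Gamma0 γ)

/-- `δ γ δ⁻¹` as an element of `SL(2,ℤ)`. -/
def dconjSL (N q : ℕ) (γ : Gamma0 (N * q)) : SL(2, ℤ) :=
  ⟨dconjMat q ((γ : SL(2, ℤ)) : Matrix (Fin 2) (Fin 2) ℤ), by
    rw [dconjMat_det (q_dvd_of_mem N q γ)]
    exact (γ : SL(2, ℤ)).2⟩

theorem dconjSL_coe (N q : ℕ) (γ : Gamma0 (N * q)) :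
    ((dconjSL N q γ : SL(2, ℤ)) : Matrix (Fin 2) (Fin 2) ℤ) =
      dconjMat q ((γ : SL(2, ℤ)) : Matrix (Fin 2) (Fin 2) ℤ) := rfl

theorem dconjSL_mem (N q : ℕ) [NeZero q] (γ : Gamma0 (N * q)) : dconjSL N q γ ∈ Gamma0 N := by
  rw [Gamma0_mem, ZMod.intCast_zmod_eq_zero_iff_dvd]
  obtain ⟨c, hc⟩ := dvd_of_mem_Gamma0 γ
  have hq' : (q : ℤ) ≠ 0 := by exact_mod_cast NeZero.ne q
  have h2 : ((γ : SL(2, ℤ)) : Matrix (Fin 2) (Fin 2) ℤ) 1 0 = q * (N * c) := by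
    rw [hc]; push_cast; ring
  have h3 : (dconjSL N q γ : SL(2, ℤ)) 1 0 = N * c := by
    show dconjMat q ((γ : SL(2, ℤ)) : Matrix (Fin 2) (Fin 2) ℤ) 1 0 = N * c
    simp only [dconjMat, of_apply, cons_val', cons_val_zero, cons_val_fin_one, cons_val_one, h2,
      Int.mul_ediv_cancel_left _ hq']
  rw [h3]
  exact Dvd.intro c rfl

/-- `γ ↦ δ γ δ⁻¹`, `Γ₀(N q) → Γ₀(N)`. -/
def dconj (N q : ℕ) [NeZero q] : Gamma0 (N * q) →* Gamma0 N where
  toFun γ := ⟨dconjSL N q γ, dconjSL_mem N q γ⟩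
  map_one' := by
    apply Subtype.ext; apply Subtype.ext
    rw [dconjSL_coe]
    ext i j
    fin_cases i <;> fin_cases j <;> simp [dconjMat]
  map_mul' γ γ' := by
    apply Subtype.ext; apply Subtype.ext
    exact dconjMat_mul (NeZero.ne q) (q_dvd_of_mem N q γ) (q_dvd_of_mem N q γ')

/-- first degeneracy map (restriction). -/
def res₁ (N q : ℕ) (A : Type*) [AddCommGroup A] :
    (Additive (Gamma0 N) →+ A) →+ (Additive (Gamma0 (N * q)) →+ A) where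
  toFun φ := φ.comp (MonoidHom.toAdditive (Subgroup.inclusion (Gamma0_mul_le N q)))
  map_zero' := rfl
  map_add' _ _ := rfl

/-- second degeneracy map (`φ ↦ φ ∘ Ad δ`). -/
def res₂ (N q : ℕ) [NeZero q] (A : Type*) [AddCommGroup A] :
    (Additive (Gamma0 N) →+ A) →+ (Additive (Gamma0 (N * q)) →+ A) where
  toFun φ := φ.comp (MonoidHom.toAdditive (dconj N q))
  map_zero' := rfl
  map_add' _ _ := rfl

/-- `δ = diag(q, 1)`. -/
def dl (q : ℕ) : M2 := !![(q : ℚ), 0; 0, 1]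

end Fermat.Agent.S41
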