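import Fermat.Agent.S41.Core
import Fermat.Agent.GAL.HK.Lat

/-!
# S41 : degeneracy maps on the lattices, evaluation of `K ⊗ Lat M`
-/

set_option autoImplicit false

open CongruenceSubgroup Matrix ModularCurve.Period
open scoped MatrixGroups TensorProduct

namespace Fermat.Agent.S41

theorem res₁_apply (N q : ℕ) {A : Type*} [AddCommGroup A] (φ : Additive (Gamma0 N) →+ A)
    (γ : Gamma0 (N * q)) :
    res₁ N q A φ (Additive.ofMul γ) =
      φ (Additive.ofMul (Subgroup.inclusion (Gamma0_mul_le N q) γ)) := rfl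

theorem res₂_apply (N q : ℕ) [NeZero q] {A : Type*} [AddCommGroup A]
    (φ : Additive (Gamma0 N) →+ A) (γ : Gamma0 (N * q)) :
    res₂ N q A φ (Additive.ofMul γ) = φ (Additive.ofMul (dconj N q γ)) := rfl

theorem res₁_isParabolicHom (N q : ℕ) {A : Type*} [AddCommGroup A]
    {φ : Additive (Gamma0 N) →+ A} (hφ : IsParabolicHom (Gamma0 N) φ) :
    IsParabolicHom (Gamma0 (N * q)) (res₁ N q A φ) := by
  intro γ hγ
  rw [res₁_apply]
  exact hφ _ hγ

theorem res₂_isParabolicHom (N q : ℕ) [NeZero q] {A : Type*} [AddCommGroup A]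
    {φ : Additive (Gamma0 N) →+ A} (hφ : IsParabolicHom (Gamma0 N) φ) :
    IsParabolicHom (Gamma0 (N * q)) (res₂ N q A φ) := by
  intro γ hγ
  rw [res₂_apply]
  apply hφ
  have : (((dconj N q γ : Gamma0 N) : SL(2, ℤ)) : Matrix (Fin 2) (Fin 2) ℤ).trace =
      ((γ : SL(2, ℤ)) : Matrix (Fin 2) (Fin 2) ℤ).trace := by
    show (dconjMat q ((γ : SL(2, ℤ)) : Matrix (Fin 2) (Fin 2) ℤ)).trace = _
    simp [dconjMat, Matrix.trace_fin_two]
  rw [this]
  exact hγ

/-- `α₁ : Lat N → Lat (N q)`. -/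
def lres₁ (N q : ℕ) : Lat N →ₗ[ℤ] Lat (N * q) where
  toFun x := ⟨res₁ N q ℤ (x : Additive (Gamma0 N) →+ ℤ), res₁_isParabolicHom N q x.2⟩
  map_add' _ _ := rfl
  map_smul' _ _ := rfl

/-- `α₂ : Lat N → Lat (N q)`. -/
def lres₂ (N q : ℕ) [NeZero q] : Lat N →ₗ[ℤ] Lat (N * q) where
  toFun x := ⟨res₂ N q ℤ (x : Additive (Gamma0 N) →+ ℤ), res₂_isParabolicHom N q x.2⟩
  map_add' _ _ := rfl
  map_smul' _ _ := rfl

@[simp] theorem coe_lres₁ (N q : ℕ) (x : Lat N) :
    (lres₁ N q x : Additive (Gamma0 (N * q)) →+ ℤ) = res₁ N q ℤ (x : Additive (Gamma0 N) →+ ℤ) := rfl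

@[simp] theorem coe_lres₂ (N q : ℕ) [NeZero q] (x : Lat N) :
    (lres₂ N q x : Additive (Gamma0 (N * q)) →+ ℤ) = res₂ N q ℤ (x : Additive (Gamma0 N) →+ ℤ) := rfl

/-- the image of `α = (α₁, α₂)` (the `q`-old sublattice). -/
def oldLat (N q : ℕ) [NeZero q] : Submodule ℤ (Lat (N * q)) :=
  LinearMap.range (lres₁ N q) ⊔ LinearMap.range (lres₂ N q)

/-- evaluation `K ⊗ Lat M → Hom(Γ₀(M), K)`, `c ⊗ x ↦ (γ ↦ x(γ) • c)`. -/
noncomputable def evK (K : Type*) [CommRing K] (M : ℕ) :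
    K ⊗[ℤ] Lat M →ₗ[K] (Additive (Gamma0 M) →+ K) :=
  TensorProduct.AlgebraTensorModule.lift
    { toFun := fun c =>
        { toFun := fun x => (AddMonoidHom.mulLeft c).comp
            ((Int.castAddHom K).comp (x : Additive (Gamma0 M) →+ ℤ))
          map_add' := fun x y => by
            refine AddMonoidHom.ext fun γ => ?_
            simp [mul_add]
          map_smul' := fun n x => by
            refine AddMonoidHom.ext fun γ => ?_
            simp [mul_left_comm] }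
      map_add' := fun c d => by
        refine LinearMap.ext fun x => AddMonoidHom.ext fun γ => ?_
        simp [add_mul]
      map_smul' := fun c d => by
        refine LinearMap.ext fun x => AddMonoidHom.ext fun γ => ?_
        simp [mul_assoc] }

theorem evK_tmul (K : Type*) [CommRing K] (M : ℕ) (c : K) (x : Lat M) (γ : Additive (Gamma0 M)) :
    evK K M (c ⊗ₜ x) γ = c * (((x : Additive (Gamma0 M) →+ ℤ) γ : ℤ) : K) := rfl

end Fermat.Agent.S41
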